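import Fermat.Agent.LTG.W1.Coef.Kappa
import Fermat.Agent.LT3.Series.Term

/-!
# Weight one: the lifted series

`FS W τ = ∫ rho0 Σ_M Φ_M · lat (W M) τ` is the sum of the terms `√y' e(n τ'/3) cI n (gs (4π y'))`
with `τ' = τ / 3E`; translation and inversion act on `W` by `tph` and `fou`.
-/

set_option autoImplicit false
open MeasureTheory Filter Complex

namespace Fermat.LTG.W1
open Fermat.LT Fermat.LT3

variable {K : Type*} [Field K] [NumberField K] [NumberField.IsTotallyComplex K] {D : KData K}
variable {E : ℕ} [NeZero E]

variable (A : Auto D E) {W : Fam E}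

/-- **The lifted series.** `FS A W τ` pairs the function with the lattice series of the family
`W`. -/
noncomputable def FS (W : Fam E) (τ : ℂ) : ℂ := pairLift E A.Φ W τ

/-- Translating `τ` by one multiplies each member of the family by its phase `tph`. -/
theorem FS_add_one (τ : ℂ) : FS A W (τ + 1) = FS A (fun M => tph (3 * E) (W M)) τ := by
  simp only [FS, pairLift, pairLiftI, lat_add_one]

/-- Inverting `τ` replaces the family by its Fourier transforms, with a weight one factor. -/
theorem FS_inv (hW : IsFam W) {τ : ℂ} (hτ : 0 < τ.im) :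
    FS A W (-τ⁻¹) = -I * (Real.sqrt 3 : ℂ) / (9 * ((3 * E : ℕ) : ℂ) ^ 2) * τ *
      FS A (fun M => fou (3 * E) (W M)) τ := by
  simp only [FS, pairLift, pairLiftI]
  rw [← integral_const_mul]
  refine integral_congr_ae (Eventually.of_forall fun w => ?_)
  simp only [Finset.mul_sum]
  refine Finset.sum_congr rfl fun M _ => ?_
  rw [lat_inv (hW.per M) hτ]
  ring

end Fermat.LTG.W1
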