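import Fermat.Agent.LTG.W1.Series.Law
import Fermat.Agent.LTG.W1.Binary
import Fermat.Agent.LT3.Series.Forms

/-!
# Weight one: the cusp forms attached to a family

`z ↦ FS W (27E z)` and its companion are forms of weight one on `Γ₁((27E)²)`; the coefficient at
`3n` is a multiple of `κ_n`, resp. `κ_{-n}`.
-/

set_option autoImplicit false
open Filter Set UpperHalfPlane
open scoped Real Topology ComplexConjugate MatrixGroups ModularForm Manifold

namespace Fermat.LTG.W1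
open Fermat.LT Fermat.LT3

variable {K : Type*} [Field K] [NumberField K] [NumberField.IsTotallyComplex K] {D : KData K}
variable {E : ℕ} [NeZero E] (A : Auto D E) {W : Fam E}

/-- The congruence modulus of the lift. -/
abbrev lvK (E : ℕ) : ℕ := 3 * (3 * (3 * E))

/-- The level of the forms. -/
abbrev lvN (E : ℕ) : ℕ := lvK E * lvK E

/-- **Invariance of the lift.** The lifted series transforms into itself with weight one under
`InGam (lvK E)`. -/
theorem trans_self (hW : IsFam W) {γ : SL(2, ℤ)} (hγ : InGam (lvK E) γ) : Trans A γ W W 1 := by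
  intro τ hτ
  rw [one_mul, FS, FS, pairLift, pairLift, ← MeasureTheory.integral_const_mul]
  refine MeasureTheory.integral_congr_ae (Eventually.of_forall fun w => ?_)
  simp only [pairLiftI, Finset.mul_sum]
  exact Finset.sum_congr rfl fun M _ => by rw [lat_law (hW.per M) hγ hτ]; ring

/-- Reduction of the multiple of a modular substitution to a triangular one. -/
lemma exists_cusp_mul {N : ℤ} (hN : 0 < N) (γ : SL(2, ℤ)) :
    ∃ (γ' : SL(2, ℤ)) (p q r : ℤ), 0 < p ∧ 0 < r ∧ ∀ τ : ℂ, 0 < τ.im →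
      ((γ 1 0 : ℂ) * τ + γ 1 1) = r * ((γ' 1 0 : ℂ) * ((p * τ + q) / r) + γ' 1 1) ∧
      (N : ℂ) * (((γ 0 0 : ℂ) * τ + γ 0 1) / ((γ 1 0 : ℂ) * τ + γ 1 1))
        = ((γ' 0 0 : ℂ) * ((p * τ + q) / r) + γ' 0 1)
            / ((γ' 1 0 : ℂ) * ((p * τ + q) / r) + γ' 1 1) := by
  have hdet := γ.det_coe
  rw [Matrix.det_fin_two] at hdet
  set g : ℤ := ((Int.gcd (N * γ 0 0) (γ 1 0) : ℕ) : ℤ)
  obtain ⟨A', hA⟩ : g ∣ N * γ 0 0 := Int.gcd_dvd_left _ _
  obtain ⟨C', hC⟩ : g ∣ γ 1 0 := Int.gcd_dvd_right _ _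
  obtain ⟨r, hr⟩ : g ∣ N := by
    rw [show N = γ 1 1 * (N * γ 0 0) - (N * γ 0 1) * γ 1 0 by linear_combination (-N) * hdet]
    exact dvd_sub ((Int.gcd_dvd_left _ _).mul_left _) ((Int.gcd_dvd_right _ _).mul_left _)
  have hg : 0 < g := by
    refine lt_of_le_of_ne (Int.natCast_nonneg _) fun h => ?_
    rw [← h, zero_mul] at hr; omega
  have hr0 : 0 < r := pos_of_mul_pos_right (hr ▸ hN) hg.le
  set s := Int.gcdA (N * γ 0 0) (γ 1 0)
  set t := Int.gcdB (N * γ 0 0) (γ 1 0)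
  -- Bézout completes the first column
  have hb : A' * s + C' * t = 1 := by
    refine mul_left_cancel₀ hg.ne' ?_
    rw [mul_one]
    linear_combination (-1 : ℤ) * Int.gcd_eq_gcd_ab (N * γ 0 0) (γ 1 0) + (-s) * hA + (-t) * hC
  refine ⟨⟨!![A', -t; C', s], by rw [Matrix.det_fin_two_of]; linear_combination hb⟩, g,
    s * (N * γ 0 1) + t * γ 1 1, r, hg, hr0, fun τ hτ => ?_⟩
  simp only [Matrix.of_apply, Matrix.cons_val', Matrix.cons_val_zero, Matrix.cons_val_one,
    Matrix.empty_val', Matrix.cons_val_fin_one]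
  have hr0' : (r : ℂ) ≠ 0 := Int.cast_ne_zero.2 hr0.ne'
  have eC : (γ 1 0 : ℂ) = g * C' := by exact_mod_cast hC
  have eA : (N : ℂ) * γ 0 0 = g * A' := by exact_mod_cast hA
  -- the second column
  have e1 : C' * (s * (N * γ 0 1) + t * γ 1 1) + r * s = γ 1 1 := by
    refine mul_left_cancel₀ hg.ne' ?_
    linear_combination (-(s * N * γ 0 1)) * hC + (-s) * hr + (g * γ 1 1) * hb + (γ 1 1 * s) * hA
      + (-(N * s)) * hdet
  have e2 : A' * (s * (N * γ 0 1) + t * γ 1 1) - r * t = N * γ 0 1 := by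
    refine mul_left_cancel₀ hg.ne' ?_
    linear_combination (-(t * γ 1 1)) * hA + t * hr + (g * N * γ 0 1) * hb + (N * γ 0 1 * t) * hC
      + (N * t) * hdet
  have e1' : (C' : ℂ) * (s * (N * γ 0 1) + t * γ 1 1) + r * s = γ 1 1 := by exact_mod_cast e1
  have e2' : (A' : ℂ) * (s * (N * γ 0 1) + t * γ 1 1) - r * t = N * γ 0 1 := by exact_mod_cast e2
  push_cast
  have hden : (γ 1 0 : ℂ) * τ + γ 1 1
      = r * ((C' : ℂ) * ((g * τ + (s * (N * γ 0 1) + t * γ 1 1)) / r) + s) := by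
    rw [eC, ← sub_eq_zero]; field_simp; linear_combination -e1'
  refine ⟨hden, ?_⟩
  have hnum : (N : ℂ) * ((γ 0 0 : ℂ) * τ + γ 0 1)
      = r * ((A' : ℂ) * ((g * τ + (s * (N * γ 0 1) + t * γ 1 1)) / r) + -t) := by
    rw [mul_add, ← mul_assoc, eA, ← sub_eq_zero]; field_simp; linear_combination -e2'
  rw [← mul_div_assoc, hnum, hden, mul_div_mul_left _ _ hr0']

/-- The series and companion at a scaled variable have slash translates of controlled growth. -/
lemma bnd_scale (hW : IsFam W) {N : ℤ} (hN : 0 < N) :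
    Bnd (fun z => FS A W (N * z)) ∧ Bnd (fun z => gF A W (N * z)) := by
  -- decay at every cusp, for both series
  have conv : ∀ γ : SL(2, ℤ), ∃ (C c : ℝ), 0 < c ∧
      ∀ z : ℂ, 0 < z.im → 1 ≤ c * z.im →
        ‖FS A W (N * (((γ 0 0 : ℂ) * z + γ 0 1) / ((γ 1 0 : ℂ) * z + γ 1 1)))
            / ((γ 1 0 : ℂ) * z + γ 1 1)‖
          ≤ C * (1 + Real.sqrt (c * z.im)) * Real.exp (-(π / 3 * (c * z.im))) ∧
        ‖gF A W (N * (((γ 0 0 : ℂ) * z + γ 0 1) / ((γ 1 0 : ℂ) * z + γ 1 1)))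
            / ((γ 1 0 : ℂ) * z + γ 1 1)‖
          ≤ C * (1 + Real.sqrt (c * z.im)) * Real.exp (-(π / 3 * (c * z.im))) := by
    intro γ
    -- write `N * γ z` as `γ' σ` with `σ = (p z + q) / r`, and transform by `γ'`
    obtain ⟨γ', p, q, r, hp, hr, hh⟩ := exists_cusp_mul hN γ
    obtain ⟨W', k, hW', ht⟩ := exists_trans A γ' W hW
    obtain ⟨C, hC⟩ := exists_decay (subExp_kap A hW')
    have hr' : (0 : ℝ) < r := Int.cast_pos.2 hr
    have h3E : (0 : ℝ) < ((3 * E : ℕ) : ℝ) :=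
      Nat.cast_pos.2 (Nat.mul_pos three_pos (NeZero.pos E))
    refine ⟨‖k‖ / r * C, p / (r * ((3 * E : ℕ) : ℝ)), by positivity, fun z hz h1 => ?_⟩
    obtain ⟨hden, harg⟩ := hh z hz
    set σ := ((p : ℂ) * z + q) / r with hσd
    have hσ : 0 < σ.im := by rw [hσd, Complex.div_intCast_im]; simp; positivity
    have him : (scl E σ).im = p / (r * ((3 * E : ℕ) : ℝ)) * z.im := by
      rw [scl_im, hσd, Complex.div_intCast_im]
      simp
      field_simp
    -- the transformed family decays at `σ`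
    obtain ⟨hF, hG⟩ := hC (scl E σ) (him ▸ h1)
    rw [him] at hF hG
    have hC0 : 0 ≤ C := nonneg_of_mul_nonneg_left ((norm_nonneg _).trans hG) (Real.exp_pos _)
    have hnr : ‖(r : ℂ)‖ = r := by rw [Complex.norm_intCast, abs_of_pos hr']
    have hd := denom_ne γ' hσ
    have hr0 : (r : ℂ) ≠ 0 := Int.cast_ne_zero.2 hr.ne'
    set X := (p : ℝ) / (r * ((3 * E : ℕ) : ℝ)) * z.im
    have hF' : ‖FS A W' σ‖ ≤ C * (1 + Real.sqrt X) * Real.exp (-(π / 3 * X)) := by
      rw [FS_eq A hW' hσ]; exact hF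
    have hG' : ‖gF A W' σ‖ ≤ C * (1 + Real.sqrt X) * Real.exp (-(π / 3 * X)) :=
      hG.trans (mul_le_mul_of_nonneg_right (le_mul_of_one_le_right hC0
        (le_add_of_nonneg_right (Real.sqrt_nonneg _))) (Real.exp_pos _).le)
    -- and the automorphy factors cancel up to `r`
    rw [harg, hden, ht σ hσ, gF_trans A hW hW' ht hσ]
    have e : ∀ a b : ℂ, a * ((γ' 1 0 : ℂ) * σ + γ' 1 1) * b
        / ((r : ℂ) * ((γ' 1 0 : ℂ) * σ + γ' 1 1)) = a / r * b := fun a b => by field_simp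
    rw [e, e, norm_mul, norm_mul, norm_div, norm_div, RCLike.norm_conj, hnr]
    exact ⟨(mul_le_mul_of_nonneg_left hF' (by positivity)).trans_eq (by ring),
      (mul_le_mul_of_nonneg_left hG' (by positivity)).trans_eq (by ring)⟩
  refine ⟨fun γ => ?_, fun γ => ?_⟩ <;> obtain ⟨C, c, hc, h⟩ := conv γ
  · exact ⟨C, c, hc, fun z hz h1 => (h z hz h1).1⟩
  · exact ⟨C, c, hc, fun z hz h1 => (h z hz h1).2⟩

/-- Multiplication by `lvK E` preserves the upper half plane. -/
lemma im_lvK {z : ℂ} (hz : 0 < z.im) : 0 < ((lvK E : ℤ) * z : ℂ).im := by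
  simp
  have : (0 : ℝ) < E := Nat.cast_pos.2 (NeZero.pos E)
  positivity

/-- The law of a rescaled function. -/
lemma scale_law {G : ℂ → ℂ}
    (hG : ∀ δ : SL(2, ℤ), InGam (lvK E) δ → ∀ τ : ℂ, 0 < τ.im →
      G (((δ 0 0 : ℂ) * τ + δ 0 1) / ((δ 1 0 : ℂ) * τ + δ 1 1))
        = ((δ 1 0 : ℂ) * τ + δ 1 1) * G τ)
    {γ : SL(2, ℤ)} (hγ : γ ∈ CongruenceSubgroup.Gamma1 (lvN E)) {z : ℂ} (hz : 0 < z.im) :
    G ((lvK E : ℤ) * (((γ 0 0 : ℂ) * z + γ 0 1) / ((γ 1 0 : ℂ) * z + γ 1 1)))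
      = ((γ 1 0 : ℂ) * z + γ 1 1) * G ((lvK E : ℤ) * z) := by
  rw [CongruenceSubgroup.Gamma1_mem] at hγ
  obtain ⟨ha, hd, hc⟩ := hγ
  set L : ℤ := (lvK E : ℤ)
  have hLL : ((lvN E : ℕ) : ℤ) = L * L := Nat.cast_mul _ _
  obtain ⟨c', hc'⟩ : L * L ∣ γ 1 0 := hLL ▸ (ZMod.intCast_zmod_eq_zero_iff_dvd _ _).1 hc
  have hdvd : ∀ x : ℤ, ((x : ZMod (lvN E)) = 1) → L ∣ x - 1 := fun x hx => by
    have h := (ZMod.intCast_eq_intCast_iff_dvd_sub 1 x (lvN E)).1 (by rw [hx, Int.cast_one])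
    exact (dvd_mul_right L L).trans (hLL ▸ h)
  let δ : SL(2, ℤ) := ⟨!![γ 0 0, L * γ 0 1; L * c', γ 1 1], by
    have := γ.det_coe
    rw [Matrix.det_fin_two, hc'] at this
    rw [Matrix.det_fin_two_of]; linear_combination this⟩
  have h := hG δ ⟨hdvd _ ha, dvd_mul_right _ _, dvd_mul_right _ _, hdvd _ hd⟩
    ((L : ℂ) * z) (im_lvK hz)
  have hden : ((δ 1 0 : ℤ) : ℂ) * ((L : ℂ) * z) + (δ 1 1 : ℤ) = (γ 1 0 : ℂ) * z + γ 1 1 := by
    simp [δ, hc']; ring
  have hnum : ((δ 0 0 : ℤ) : ℂ) * ((L : ℂ) * z) + (δ 0 1 : ℤ)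
      = (L : ℂ) * ((γ 0 0 : ℂ) * z + γ 0 1) := by
    simp [δ]; ring
  rw [hden, hnum, mul_div_assoc] at h
  exact h

/-- The level is not zero. -/
instance instNeZeroLvN : NeZero (lvN E) :=
  ⟨by simp [lvN, lvK, NeZero.ne E]⟩

/-- A cusp form from its function. -/
noncomputable def mkForm1 (f : ℂ → ℂ)
    (hl : ∀ γ : SL(2, ℤ), γ ∈ CongruenceSubgroup.Gamma1 (lvN E) → ∀ z : ℂ, 0 < z.im →
      f (((γ 0 0 : ℂ) * z + γ 0 1) / ((γ 1 0 : ℂ) * z + γ 1 1)) = ((γ 1 0 : ℂ) * z + γ 1 1) * f z)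
    (hd : DifferentiableOn ℂ f {z | 0 < z.im}) (hb : Bnd f) :
    CuspForm (CongruenceSubgroup.Gamma1 (lvN E)) 1 where
  toFun z := f z
  slash_action_eq' := by
    rintro g ⟨γ, hγ, rfl⟩
    funext z
    change ((fun z : ℍ => f z) ∣[(1 : ℤ)] γ) z = f z
    rw [slash_one_apply, hl γ hγ _ z.im_pos, mul_div_cancel_left₀ _ (denom_ne γ z.im_pos)]
  holo' := mdiff_of_diffOn hd
  zero_at_cusps' := fun {c} hc => by
    rw [Subgroup.IsArithmetic.isCusp_iff_isCusp_SL2Z] at hc
    exact (OnePoint.isZeroAt_iff_forall_SL2Z hc).2 fun γ _ => isZeroAtImInfty_of_bnd hb γ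

/-- With no negative coefficients the lift is differentiable. -/
lemma diffOn_FS (hW : IsFam W) (hh : ∀ n : ℤ, n < 0 → kap A W n = 0) :
    DifferentiableOn ℂ (fun z => FS A W ((lvK E : ℤ) * z)) {z | 0 < z.im} := by
  intro z hz
  refine DifferentiableAt.differentiableWithinAt ?_
  set τ : ℂ := (lvK E : ℤ) * z
  have hτ : 0 < τ.im := im_lvK hz
  obtain ⟨L, hL, hg⟩ := exists_fderiv_FS A hW hτ
  have h0 : gF A W τ = 0 := by
    simp only [gF, GG, gtm]
    refine (tsum_congr fun n => ?_).trans tsum_zero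
    split_ifs with hn
    · simp [hh n hn]
    · rfl
  have hd : dbarL L = 0 := by
    rw [h0, mul_eq_zero] at hg
    rcases hg with hg | hg
    · exact absurd hg (Complex.ofReal_ne_zero.2 hτ.ne')
    · exact (map_eq_zero _).1 hg
  have hD : DifferentiableAt ℂ (FS A W) τ := by
    refine differentiableAt_complex_iff_differentiableAt_real.2 ⟨hL.differentiableAt, ?_⟩
    rw [hL.fderiv, smul_eq_mul]
    rw [dbarL_apply] at hd
    have := (mul_eq_zero.1 hd).resolve_left (by norm_num)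
    linear_combination (-Complex.I) * this + L Complex.I * Complex.I_mul_I
  exact DifferentiableAt.comp (f := fun w : ℂ => ((lvK E : ℤ) : ℂ) * w) (g := FS A W) z hD
    (differentiableAt_id.const_mul ((lvK E : ℤ) : ℂ))

/-- The companion is holomorphic on the upper half plane. -/
lemma diffOn_gF (hW : IsFam W) :
    DifferentiableOn ℂ (fun z => gF A W ((lvK E : ℤ) * z)) {z | 0 < z.im} := by
  intro z hz
  refine DifferentiableAt.differentiableWithinAt ?_
  have h1 : DifferentiableAt ℂ (fun z : ℂ => scl E ((lvK E : ℤ) * z)) z := by unfold scl; fun_prop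
  exact DifferentiableAt.comp (f := fun w : ℂ => scl E ((lvK E : ℤ) * w)) z
    (differentiableAt_GG (subExp_kap A hW) (scl_im_pos (im_lvK hz))) h1

/-- **The lift.** `z ↦ FS W (lvK E z)` as a cusp form of weight one on `Γ₁(lvN E)`, when the
negative coefficients vanish. -/
noncomputable def form1 (hW : IsFam W) (hh : ∀ n : ℤ, n < 0 → kap A W n = 0) :
    CuspForm (CongruenceSubgroup.Gamma1 (lvN E)) 1 :=
  mkForm1 (fun z => FS A W ((lvK E : ℤ) * z))
    (fun _ hγ _ hz => scale_law (G := FS A W)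
      (fun δ hδ τ hτ => by simpa using trans_self A hW hδ τ hτ) hγ hz)
    (diffOn_FS A hW hh) (bnd_scale A hW (by simp [NeZero.pos E])).1

/-- **The companion.** `z ↦ gF W (lvK E z)` as a cusp form of weight one on `Γ₁(lvN E)`. -/
noncomputable def form2 (hW : IsFam W) : CuspForm (CongruenceSubgroup.Gamma1 (lvN E)) 1 :=
  mkForm1 (fun z => gF A W ((lvK E : ℤ) * z))
    (fun _ hγ _ hz => scale_law (G := gF A W)
      (fun δ hδ τ hτ => by simpa using gF_trans A hW hW (trans_self A hW hδ) hτ) hγ hz)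
    (diffOn_gF A hW) (bnd_scale A hW (by simp [NeZero.pos E])).2

omit [NeZero E] in
/-- One is a period of the level. -/
lemma one_mem_periods :
    (1 : ℝ) ∈ ((CongruenceSubgroup.Gamma1 (lvN E)).map
      (Matrix.SpecialLinearGroup.mapGL ℝ)).strictPeriods := by
  rw [Subgroup.mem_strictPeriods_iff]
  refine ⟨⟨!![1, 1; 0, 1], by simp [Matrix.det_fin_two_of]⟩, ?_, ?_⟩
  · change _ ∈ CongruenceSubgroup.Gamma1 (lvN E)
    rw [CongruenceSubgroup.Gamma1_mem]; simp
  · ext i j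
    fin_cases i <;> fin_cases j <;> simp [Matrix.GeneralLinearGroup.upperRightHom]

/-- The scaling of the modulus of the lift is nine. -/
lemma scl_lvK (z : ℂ) : scl E ((lvK E : ℤ) * z) = 9 * z := by
  have hE : (E : ℂ) ≠ 0 := by exact_mod_cast NeZero.ne E
  rw [scl, lvK]
  push_cast
  field_simp
  ring

/-- The exponential at `9 z` is the parameter to the power `3m`. -/
lemma eT_nine (m : ℕ) (z : ℂ) : eT m (9 * z) = Function.Periodic.qParam (1 : ℝ) z ^ (3 * m) := by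
  rw [eT, Function.Periodic.qParam, ← Complex.exp_nat_mul]
  congr 1
  push_cast
  ring

/-- Coefficients of the lift. -/
noncomputable def c1 (W : Fam E) (m : ℕ) : ℂ :=
  if 3 ∣ m then kap A W ((m / 3 : ℕ) : ℤ) / 2 else 0

/-- Coefficients of the companion. -/
noncomputable def c2 (W : Fam E) (m : ℕ) : ℂ :=
  if 3 ∣ m then conj (kap A W (-((m / 3 : ℕ) : ℤ))) *
    (Complex.I / (8 * (Real.sqrt ((m / 3 : ℕ) / 3 : ℝ) : ℂ))) else 0

/-- The coefficients of the lift are `c1`. -/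
theorem qCoeff_form1 (hW : IsFam W) (hh : ∀ n : ℤ, n < 0 → kap A W n = 0) (m : ℕ) :
    ModularFormClass.qCoeff (form1 A hW hh) m = c1 A W m := by
  refine (ModularFormClass.qExpansion_coeff_unique one_pos one_mem_periods
    (f := form1 A hW hh) (c := c1 A W) (fun z => ?_) m).symm
  have hs := (summable_trm (subExp_kap A hW)
    (scl_im_pos (E := E) (im_lvK (E := E) z.im_pos))).hasSum
  rw [← GS, ← FS_eq A hW (im_lvK z.im_pos), scl_lvK] at hs
  have h1 : HasSum (fun n : ℕ => kap A W n / 2 *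
      Function.Periodic.qParam (1 : ℝ) (z : ℂ) ^ (3 * n)) (form1 A hW hh z) := by
    refine ((Function.Injective.hasSum_iff (g := fun n : ℕ => (n : ℤ))
      (fun a b hab => by simpa using hab) fun n hn => ?_).2 hs).congr_fun fun n => ?_
    · rw [trm, if_neg fun h => hn ⟨n.toNat, Int.toNat_of_nonneg h.le⟩]
      split_ifs with hneg
      · simp [hh n hneg]
      · rfl
    · rw [Function.comp_apply, trm]
      rcases Nat.eq_zero_or_pos n with rfl | hn0
      · simp [kap, pairCoef]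
      · rw [if_pos (by omega), eT_nine]
  refine (Function.Injective.hasSum_iff (g := fun n : ℕ => 3 * n)
    (fun a b hab => by simpa using hab) fun m hm => ?_).1 (h1.congr_fun fun n => ?_)
  · rw [c1, if_neg fun h => hm ⟨m / 3, Nat.mul_div_cancel' h⟩, zero_smul]
  · simp [c1]

/-- The coefficients of the companion are `c2`. -/
theorem qCoeff_form2 (hW : IsFam W) (m : ℕ) :
    ModularFormClass.qCoeff (form2 A hW) m = c2 A W m := by
  refine (ModularFormClass.qExpansion_coeff_unique one_pos one_mem_periods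
    (f := form2 A hW) (c := c2 A W) (fun z => ?_) m).symm
  have hs := (summable_gtm (subExp_kap A hW)
    (scl_im_pos (E := E) (im_lvK (E := E) z.im_pos))).hasSum
  rw [← GG, ← gF] at hs
  rw [scl_lvK] at hs
  have h1 : HasSum (fun n : ℕ => conj (kap A W (-(n : ℤ))) *
      (Complex.I / (8 * (Real.sqrt ((n : ℝ) / 3) : ℂ))) *
      Function.Periodic.qParam (1 : ℝ) (z : ℂ) ^ (3 * n)) (form2 A hW z) := by
    refine ((Function.Injective.hasSum_iff (g := fun n : ℕ => -(n : ℤ))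
      (fun a b hab => by simpa using hab) fun n hn => ?_).2 hs).congr_fun fun n => ?_
    · rw [gtm, if_neg fun h =>
        hn ⟨(-n).toNat, by simp only; rw [Int.toNat_of_nonneg (by omega)]; ring⟩]
    · rw [Function.comp_apply, gtm]
      rcases Nat.eq_zero_or_pos n with rfl | hn0
      · simp [kap, pairCoef]
      · rw [if_pos (by omega), neg_neg, eT_nine]
        simp [an]
  refine (Function.Injective.hasSum_iff (g := fun n : ℕ => 3 * n)
    (fun a b hab => by simpa using hab) fun m hm => ?_).1 (h1.congr_fun fun n => ?_)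
  · rw [c2, if_neg fun h => hm ⟨m / 3, Nat.mul_div_cancel' h⟩, zero_smul]
  · simp [c2]

/-- **The Hecke relation of the coefficients.** -/
theorem c_hecke (hW : IsHFam W) {π' : EI} (hπ : Prime π') {p : ℕ}
    (hnm : QuadraticAlgebra.norm π' = (p : ℤ)) (hp : p.Prime)
    (h9 : IsUnit (p : ZMod (3 * (3 * E)))) (m : ℕ) :
    c1 A W (p * m) + (if p ∣ m then c1 A W (m / p) else 0)
        = ((A.lam π' / Real.sqrt p : ℝ) : ℂ) * c1 A W m ∧
    c2 A W (p * m) + (if p ∣ m then c2 A W (m / p) else 0)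
        = ((A.lam π' / Real.sqrt p : ℝ) : ℂ) * c2 A W m := by
  have hp3 := ne_three_of_isUnit h9
  have hsR : Real.sqrt p ≠ 0 := (Real.sqrt_pos.2 (Nat.cast_pos.2 hp.pos)).ne'
  have hs : (Real.sqrt p : ℂ) ≠ 0 := Complex.ofReal_ne_zero.2 hsR
  have hcop : Nat.Coprime 3 p := (Nat.coprime_primes Nat.prime_three hp).2 (Ne.symm hp3)
  by_cases h3 : 3 ∣ m
  swap
  · have ha : ¬ 3 ∣ p * m := fun h => h3 (hcop.dvd_of_dvd_mul_left h)
    have hb : p ∣ m → ¬ 3 ∣ m / p := fun hd h => h3 (h.trans (Nat.div_dvd_of_dvd hd))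
    constructor <;> simp only [c1, c2, if_neg h3, if_neg ha] <;> split_ifs with hd h <;>
      first | exact absurd h (hb hd) | simp
  obtain ⟨n, rfl⟩ := h3
  have hdiv : p ∣ 3 * n ↔ p ∣ n := ⟨fun h => hcop.symm.dvd_of_dvd_mul_left h, fun h => h.mul_left 3⟩
  have e1 : p * (3 * n) = 3 * (p * n) := by ring
  have e2 : ∀ k, n = p * k → 3 * n / p = 3 * k := fun k hk => by
    rw [hk, show 3 * (p * k) = p * (3 * k) by ring, Nat.mul_div_cancel_left _ hp.pos]
  rcases Nat.eq_zero_or_pos n with rfl | hn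
  · constructor <;> simp [c1, c2, kap, pairCoef]
  -- the relation of `κ` at `± n`, rescaled by the square roots
  have hpos := kap_hecke_pos A hW hπ hnm hp h9 (n := (n : ℤ)) (by omega)
  have hneg := kap_hecke_neg A hW hπ hnm hp h9 (n := -(n : ℤ)) (by omega)
  rw [kapDiv] at hpos hneg
  have hd' : ((p : ℤ) ∣ (n : ℤ)) ↔ p ∣ n := Int.natCast_dvd_natCast
  have hd'' : ((p : ℤ) ∣ -(n : ℤ)) ↔ p ∣ n := by rw [dvd_neg]; exact hd'
  simp only [hd', hd''] at hpos hneg
  have hsn : (Real.sqrt ((n : ℝ) / 3) : ℂ) ≠ 0 :=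
    Complex.ofReal_ne_zero.2 (Real.sqrt_pos.2 (by positivity)).ne'
  have hl : (starRingEnd ℂ) (A.lam π' : ℂ) = (A.lam π' : ℂ) := Complex.conj_ofReal _
  have hsq : (Real.sqrt p : ℂ) * Real.sqrt p = (p : ℂ) := by
    rw [← Complex.ofReal_mul, Real.mul_self_sqrt (Nat.cast_nonneg p)]; simp
  have eS : (Real.sqrt (((p * n : ℕ) : ℝ) / 3) : ℂ)
      = (Real.sqrt p : ℂ) * (Real.sqrt ((n : ℝ) / 3) : ℂ) := by
    rw [← Complex.ofReal_mul, ← Real.sqrt_mul (Nat.cast_nonneg p)]; push_cast; ring_nf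
  refine ⟨?_, ?_⟩
  · simp only [c1, e1, hdiv, dvd_mul_right, if_true, Nat.mul_div_cancel_left _ three_pos]
    by_cases hd : p ∣ n
    · obtain ⟨k, hk⟩ := hd
      rw [if_pos ⟨k, hk⟩] at hpos ⊢
      rw [e2 k hk, if_pos (dvd_mul_right 3 k), Nat.mul_div_cancel_left _ three_pos]
      push_cast at hpos ⊢
      rw [show ((n : ℤ) / (p : ℤ)) = (k : ℤ) by
        rw [hk]; push_cast; exact Int.mul_ediv_cancel_left _ (by simp [hp.ne_zero])] at hpos
      field_simp
      linear_combination -hpos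
    · rw [if_neg hd] at hpos ⊢
      push_cast at hpos ⊢
      field_simp
      linear_combination -hpos
  · simp only [c2, e1, hdiv, dvd_mul_right, if_true, Nat.mul_div_cancel_left _ three_pos, eS]
    have hneg' := congrArg (starRingEnd ℂ) hneg
    rw [map_mul, map_add, map_mul, hl, map_natCast] at hneg'
    rw [show (p : ℤ) * -(n : ℤ) = -((p * n : ℕ) : ℤ) by push_cast; ring] at hneg'
    by_cases hd : p ∣ n
    · obtain ⟨k, hk⟩ := hd
      rw [if_pos ⟨k, hk⟩] at hneg' ⊢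
      rw [e2 k hk, if_pos (dvd_mul_right 3 k), Nat.mul_div_cancel_left _ three_pos]
      push_cast at hneg' ⊢
      rw [show (-(n : ℤ) / (p : ℤ)) = -(k : ℤ) by
        rw [hk]; push_cast
        rw [show -((p : ℤ) * k) = (p : ℤ) * -(k : ℤ) by ring]
        exact Int.mul_ediv_cancel_left _ (by simp [hp.ne_zero])] at hneg'
      have eK : (Real.sqrt ((k : ℝ) / 3) : ℂ) * (Real.sqrt p : ℂ)
          = (Real.sqrt ((n : ℝ) / 3) : ℂ) := by
        rw [← Complex.ofReal_mul, mul_comm, ← Real.sqrt_mul (Nat.cast_nonneg p), hk]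
        push_cast; ring_nf
      have hk0 : (Real.sqrt ((k : ℝ) / 3) : ℂ) ≠ 0 := fun h => hsn (by rw [← eK, h, zero_mul])
      rw [← eK]
      field_simp
      linear_combination -hneg' + (starRingEnd ℂ) (kap A W (-(k : ℤ))) * hsq
    · rw [if_neg hd] at hneg' ⊢
      push_cast at hneg' ⊢
      simp only [map_zero, mul_zero, add_zero] at hneg'
      field_simp
      linear_combination -Complex.I * hneg'

end Fermat.LTG.W1
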