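import Fermat.Agent.LTG.W1.Series.Def
import Fermat.Agent.LTG.W1.Coef.Zero
import Fermat.Agent.LT3.Series.Law

/-!
# Weight one: laws of the lifted series and of its holomorphic companion

`exists_trans` gives the law under all of `SL₂(ℤ)` and `gF_trans` that of the companion `gF`.
-/

set_option autoImplicit false
open Filter Set
open scoped ComplexConjugate MatrixGroups

namespace Fermat.LTG.W1
open Fermat.LT Fermat.LT3

variable {K : Type*} [Field K] [NumberField K] [NumberField.IsTotallyComplex K] {D : KData K}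
variable {E : ℕ} [NeZero E] (A : Auto D E) {W W' : Fam E}

/-- The coefficients grow less than exponentially. -/
lemma subExp_kap (hW : IsFam W) : SubExp (kap A W) := fun _ hε => exists_kap_bound A hW hε

/-- **The series in closed form.** The lifted series is `GS` of the coefficients `κ` at the scaled
argument. -/
theorem FS_eq (hW : IsFam W) {τ : ℂ} (hτ : 0 < τ.im) :
    FS A W τ = GS (kap A W) (scl E τ) :=
  pairLift_eq (A.pair hW.eqv) hW.per (fun _ hF => cI_zero A hW hF) hτ

/-- The holomorphic companion. -/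
noncomputable def gF (W : Fam E) (τ : ℂ) : ℂ := GG (kap A W) (scl E τ)

/-- The lifted series is differentiable, with `∂̄` given by the companion `gF`. -/
theorem exists_fderiv_FS (hW : IsFam W) {τ : ℂ} (hτ : 0 < τ.im) :
    ∃ L, HasFDerivAt (FS A W) L τ ∧ (τ.im : ℂ) * conj (dbarL L) = gF A W τ :=
  exists_fderiv_of_eq_GS (subExp_kap A hW) (fun _ hz => FS_eq A hW hz) hτ

/-- `W'` is the transform of `W` by `γ`. -/
def Trans (γ : SL(2, ℤ)) (W W' : Fam E) (k : ℂ) : Prop := TransF γ (FS A W) (FS A W') k

/-- **The companion obeys the conjugate law.** -/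
theorem gF_trans (hW : IsFam W) (hW' : IsFam W') {γ : SL(2, ℤ)} {k : ℂ}
    (h : Trans A γ W W' k) {τ : ℂ} (hτ : 0 < τ.im) :
    gF A W (((γ 0 0 : ℂ) * τ + γ 0 1) / ((γ 1 0 : ℂ) * τ + γ 1 1))
      = conj k * ((γ 1 0 : ℂ) * τ + γ 1 1) * gF A W' τ :=
  TransF.companion h hτ (exists_fderiv_FS A hW (im_mob γ hτ)) (exists_fderiv_FS A hW' hτ)

/-- Twisting by a quadratic phase gives another family. -/
lemma IsFam.tphInv (hW : IsFam W) :
    IsFam fun M X => ee (3 * (3 * E)) (-(q3 X : ZMod (3 * (3 * E)))) * W M X where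
  per M := per_tphInv (hW.per M)
  smul γ M X := by
    have hd : q3 (dact γ.val X) = q3 X := by rw [q3_dact, norm_det_unit, one_mul]
    simp only [hd, hW.smul]

/-- **All of `SL₂(ℤ)`.** Every element of `SL₂(ℤ)` carries the series of a family to that of another
family with a scalar (`Trans`). -/
theorem exists_trans (γ : SL(2, ℤ)) : ∀ W : Fam E, IsFam W →
    ∃ W' k, IsFam W' ∧ Trans A γ W W' k :=
  exists_transF (F := FS A) (T := fun W M => tph (3 * E) (W M)) (S := fun W M => fou (3 * E) (W M))
    (fun _ h => h.tph) (fun _ h => h.tphInv) (fun _ h => h.fou)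
    (fun W => funext fun M => tph_tphInv (W M)) (fun _ τ => FS_add_one A τ)
    (fun _ h _ hτ => FS_inv A h hτ) γ

end Fermat.LTG.W1
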